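/-
FF3/NormFac/Basic.lean — Mathlib-only leaf (L7) for the S33 long shot (Step A).

Norm factorisation: for a finite free `K`-algebra `F`, a commutative `K`-algebra `L` and an
`L`-algebra isomorphism `L ⊗[K] F ≃ F₁ × F₂` (the two completions above a valuation), the norm
`N_{F/K}(f)` maps to the product of the two local norms of the components of `1 ⊗ f`.
-/
import Mathlib

set_option autoImplicit false

namespace Fermat.Agent.FF3.NormFac

open scoped TensorProduct

section Prod

variable {R A B : Type*} [CommRing R] [CommRing A] [CommRing B] [Algebra R A] [Algebra R B]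
  [Module.Free R A] [Module.Finite R A] [Module.Free R B] [Module.Finite R B]

/-- The norm of a product algebra is the product of the norms. -/
theorem norm_prod_eq (x : A × B) :
    Algebra.norm R x = Algebra.norm R x.1 * Algebra.norm R x.2 := by
  rw [Algebra.norm_apply, Algebra.norm_apply, Algebra.norm_apply, ← LinearMap.det_prodMap]
  congr 1

end Prod

section Pi

variable {ι : Type*} [Fintype ι] [DecidableEq ι] {R : Type*} [CommRing R]
    (A : ι → Type*) [∀ i, CommRing (A i)] [∀ i, Algebra R (A i)]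

/-- Splitting off one factor of a product algebra. -/
def piSplitAtAlgEquiv (i : ι) : (∀ j, A j) ≃ₐ[R] A i × (∀ j : {j // j ≠ i}, A j) :=
  { Equiv.piSplitAt i A with
    map_mul' := fun _ _ => rfl
    map_add' := fun _ _ => rfl
    commutes' := fun _ => rfl }

variable [∀ i, Module.Free R (A i)] [∀ i, Module.Finite R (A i)]

theorem norm_mulSingle (i : ι) (a : A i) :
    Algebra.norm R (Pi.mulSingle i a : ∀ j, A j) = Algebra.norm R a := by
  rw [← Algebra.norm_eq_of_algEquiv (piSplitAtAlgEquiv (R := R) A i), norm_prod_eq]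
  have h1 : (piSplitAtAlgEquiv (R := R) A i (Pi.mulSingle i a)).1 = a := by
    show (Pi.mulSingle i a : ∀ j, A j) i = a
    exact Pi.mulSingle_eq_same i a
  have h2 : (piSplitAtAlgEquiv (R := R) A i (Pi.mulSingle i a)).2 = 1 := by
    funext j
    show (Pi.mulSingle i a : ∀ j, A j) j.1 = 1
    exact Pi.mulSingle_eq_of_ne j.2 a
  rw [h1, h2, map_one, mul_one]

/-- The norm of a finite product algebra is the product of the norms. -/
theorem norm_pi_eq (x : ∀ i, A i) :
    Algebra.norm R x = ∏ i, Algebra.norm R (x i) := by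
  conv_lhs => rw [← Finset.univ_prod_mulSingle x]
  rw [map_prod]
  exact Finset.prod_congr rfl (fun i _ => norm_mulSingle A i (x i))

end Pi

section BaseChange

variable {K F L : Type*} [CommRing K] [CommRing F] [Algebra K F] [Module.Free K F]
  [Module.Finite K F] [CommRing L] [Algebra K L]

/-- The norm commutes with base change. -/
theorem norm_one_tmul (f : F) :
    Algebra.norm L ((1 : L) ⊗ₜ[K] f) = algebraMap K L (Algebra.norm K f) := by
  rw [Algebra.norm_apply, Algebra.norm_apply, ← LinearMap.det_baseChange]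
  congr 1
  apply TensorProduct.AlgebraTensorModule.curry_injective
  apply LinearMap.ext
  intro l
  apply LinearMap.ext
  intro g
  simp [Algebra.coe_lmul_eq_mul]

end BaseChange

section Factor

variable {K F L F₁ F₂ : Type*} [CommRing K] [CommRing F] [Algebra K F] [Module.Free K F]
  [Module.Finite K F] [CommRing L] [Algebra K L]
  [CommRing F₁] [CommRing F₂] [Algebra L F₁] [Algebra L F₂]
  [Module.Free L F₁] [Module.Finite L F₁] [Module.Free L F₂] [Module.Finite L F₂]

/-- **Norm factorisation** (two places above): if `L ⊗[K] F ≃ₐ[L] F₁ × F₂`, then the image in `L`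
of `N_{F/K}(f)` is `N_{F₁/L}(f₁) * N_{F₂/L}(f₂)` where `(f₁, f₂)` is the image of `1 ⊗ f`. -/
theorem algebraMap_norm_eq_mul (e : L ⊗[K] F ≃ₐ[L] F₁ × F₂) (f : F) :
    algebraMap K L (Algebra.norm K f) =
      Algebra.norm L (e ((1 : L) ⊗ₜ[K] f)).1 * Algebra.norm L (e ((1 : L) ⊗ₜ[K] f)).2 := by
  rw [← norm_one_tmul (L := L) f, ← norm_prod_eq, Algebra.norm_eq_of_algEquiv e]

/-- Variant with the two component maps `ι₁ : F → F₁`, `ι₂ : F → F₂` made explicit. -/
theorem algebraMap_norm_eq_mul' (e : L ⊗[K] F ≃ₐ[L] F₁ × F₂) (ι₁ : F → F₁) (ι₂ : F → F₂)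
    (h₁ : ∀ f : F, (e ((1 : L) ⊗ₜ[K] f)).1 = ι₁ f) (h₂ : ∀ f : F, (e ((1 : L) ⊗ₜ[K] f)).2 = ι₂ f)
    (f : F) :
    algebraMap K L (Algebra.norm K f) = Algebra.norm L (ι₁ f) * Algebra.norm L (ι₂ f) := by
  rw [algebraMap_norm_eq_mul e f, h₁, h₂]

/-- Variant where the first factor is `L` itself (a place of degree one): the first local norm
is the component itself. -/
theorem algebraMap_norm_eq_mul_of_degree_one (e : L ⊗[K] F ≃ₐ[L] L × F₂) (f : F) :
    algebraMap K L (Algebra.norm K f) =
      (e ((1 : L) ⊗ₜ[K] f)).1 * Algebra.norm L (e ((1 : L) ⊗ₜ[K] f)).2 := by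
  rw [algebraMap_norm_eq_mul e f, Algebra.norm_self, MonoidHom.id_apply]

/-- **Norm factorisation**, any finite family of places. -/
theorem algebraMap_norm_eq_prod {ι : Type*} [Fintype ι] [DecidableEq ι] {Fv : ι → Type*}
    [∀ i, CommRing (Fv i)] [∀ i, Algebra L (Fv i)] [∀ i, Module.Free L (Fv i)]
    [∀ i, Module.Finite L (Fv i)] (e : L ⊗[K] F ≃ₐ[L] (∀ i, Fv i)) (f : F) :
    algebraMap K L (Algebra.norm K f) = ∏ i, Algebra.norm L (e ((1 : L) ⊗ₜ[K] f) i) := by
  rw [← norm_one_tmul (L := L) f, ← norm_pi_eq, Algebra.norm_eq_of_algEquiv e]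

end Factor

end Fermat.Agent.FF3.NormFac
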